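import Fermat.Agent.S27x.Spec.Deuring.Sp

/-!
# P-S27 / G4, Deuring reduction of divisors (E): specialisation of divisor classes

`spPic0 H : Pic0 K F →+ Pic0 k κ`, induced by `spDiv H`; it is surjective and maps `n`-torsion to
`n`-torsion.
-/

set_option autoImplicit false
set_option linter.unusedSectionVars false
set_option linter.style.haveILetI false

noncomputable section

namespace Fermat.Agent.S27x.Spec.Deuring

open AlgebraicCurve IntermediateField Module Fermat.Agent.Gateway.C0
  Fermat.Agent.Lib.RiemannRoch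

variable {K : Type*} [Field K] {A : ValuationSubring K} {F : Type*} [Field F] [Algebra K F]
  {O : ValuationSubring F} {k κ : Type*} [Field k] [Field κ] [Algebra k κ]
  [IsAlgClosed K] [CharZero K] [IsAlgClosed k] [CharZero k]
  {R : RedSetup A O k κ} (H : Hyp R)
include H

theorem spDiv_mem_degZero {D : Divisor K F} (hD : D ∈ Divisor.degZero (K := K) (F := F)) :
    spDiv H D ∈ Divisor.degZero (K := k) (F := κ) := by
  rw [Divisor.mem_degZero] at hD ⊢
  rw [degree_spDiv, hD]

/-- the specialisation of a principal divisor is principal -/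
theorem spDiv_isPrincipal {D : Divisor K F} (hD : Divisor.IsPrincipal D) :
    Divisor.IsPrincipal (spDiv H D) := by
  obtain ⟨f, hf0, hDf⟩ := hD
  obtain ⟨c, hc, hcf⟩ := R.scal f hf0
  have hc' : algebraMap K F c ≠ 0 := (map_ne_zero _).mpr hc
  have hD' : ∀ v : Place K F, D v = v.ord (c • f) := by
    intro v
    rw [hDf v, Algebra.smul_def, v.ord_mul hc' hf0, Fermat.Agent.S24.PDiv.ord_algebraMap, zero_add]
  have hO : c • f ∈ O := (O.valuation_le_one_iff _).mp hcf.le
  refine ⟨R.res ⟨c • f, hO⟩, (res_ne_zero_iff R hO).mpr hcf, fun w => ?_⟩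
  exact spDiv_principal H hcf hD' w

/-- `spDiv` restricted to divisors of degree zero -/
def spDegZero : Divisor.degZero (K := K) (F := F) →+ Divisor.degZero (K := k) (F := κ) :=
  ((spDiv H).comp (Divisor.degZero (K := K) (F := F)).subtype).codRestrict _
    (fun D => spDiv_mem_degZero H D.2)

@[simp] theorem coe_spDegZero (D : Divisor.degZero (K := K) (F := F)) :
    (spDegZero H D : Divisor k κ) = spDiv H (D : Divisor K F) := rfl

/-- **Specialisation of divisor classes of degree zero.** -/
def spPic0 : Pic0 K F →+ Pic0 k κ :=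
  QuotientAddGroup.map _ _ (spDegZero H) (by
    rintro ⟨D, hD0⟩ hD
    simp only [AddSubgroup.mem_comap, AddSubgroup.mem_addSubgroupOf] at hD ⊢
    exact spDiv_isPrincipal H hD)

theorem spPic0_mk (D : Divisor.degZero (K := K) (F := F)) :
    spPic0 H (Pic0.mk D) = Pic0.mk (spDegZero H D) := rfl

theorem spPic0_mk' (D : Divisor.degZero (K := K) (F := F)) :
    ∃ h : spDiv H D.1 ∈ Divisor.degZero (K := k) (F := κ),
      spPic0 H (Pic0.mk D) = Pic0.mk ⟨spDiv H D.1, h⟩ :=
  ⟨spDiv_mem_degZero H D.2, rfl⟩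

theorem spDiv_surjective : Function.Surjective (spDiv H) := by
  intro E
  rw [← Set.mem_range]
  have := Finsupp.mapDomain_surjective (M := ℤ) (sp_surjective H)
  exact this E

theorem spPic0_surjective : Function.Surjective (spPic0 H) := by
  intro c
  obtain ⟨E, rfl⟩ := Pic0.mk_surjective c
  obtain ⟨D, hD⟩ := spDiv_surjective H (E : Divisor k κ)
  have hD0 : D ∈ Divisor.degZero (K := K) (F := F) := by
    rw [Divisor.mem_degZero, ← degree_spDiv H, hD]
    exact E.2
  refine ⟨Pic0.mk ⟨D, hD0⟩, ?_⟩
  rw [spPic0_mk]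
  congr 1
  exact Subtype.ext hD

theorem spPic0_mem_torsion {n : ℕ} {c : Pic0 K F} (hc : c ∈ Pic0.torsion K F n) :
    spPic0 H c ∈ Pic0.torsion k κ n := by
  rw [Pic0.mem_torsion] at hc ⊢
  rw [← map_zsmul, hc, map_zero]

end Fermat.Agent.S27x.Spec.Deuring
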