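import Fermat.Agent.Lib.RiemannRoch.RiemannRochCZ

/-!
# P-S27 / G4, Deuring reduction of divisors (C0): facts about one function field

`F / K` a function field over an algebraically closed field of characteristic zero (`x`
transcendental, `F / K(x)` finite).  Consequences of Riemann-Roch (`Lib/RiemannRoch`) in the form
needed for the reduction of divisors: all places have degree one, effective divisors of degree `0`
or `1`, `l(D) ≤ max (deg D) (2g-1) + 1 - g`, base point freeness for `deg D ≥ 2g`, pole divisors.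
-/

set_option autoImplicit false
set_option linter.unusedSectionVars false
set_option linter.style.haveILetI false

noncomputable section

namespace Fermat.Agent.S27x.Spec.Deuring

open AlgebraicCurve IntermediateField Module Fermat.Agent.Lib.RiemannRoch

variable {K F : Type*} [Field K] [Field F] [Algebra K F]

theorem rrs_mono {D D' : Divisor K F} (h : D ≤ D') :
    riemannRochSpace D ≤ riemannRochSpace D' := fun _ hf v =>
  (hf v).trans (WithZero.exp_le_exp.mpr (Finsupp.le_def.mp h v))

theorem mem_rrs_of_ne_zero {D : Divisor K F} {f : F} (hf : f ≠ 0) :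
    f ∈ riemannRochSpace D ↔ ∀ v : Place K F, -D v ≤ v.ord f := by
  rw [mem_riemannRochSpace_iff]
  exact forall_congr' fun v => or_iff_right hf

theorem one_mem_rrs {D : Divisor K F} (hD : 0 ≤ D) : (1 : F) ∈ riemannRochSpace D := by
  rw [mem_rrs_of_ne_zero one_ne_zero]
  intro v
  have := hD v
  simp only [Finsupp.coe_zero, Pi.zero_apply] at this
  simp only [Place.ord_one]
  omega

theorem mul_mem_rrs' {D D' : Divisor K F} {f g : F} (hf : f ∈ riemannRochSpace D)
    (hg : g ∈ riemannRochSpace D') : f * g ∈ riemannRochSpace (D + D') := by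
  intro v
  rw [map_mul, Finsupp.add_apply, WithZero.exp_add]
  exact mul_le_mul' (hf v) (hg v)

section Curve

variable [IsAlgClosed K] [CharZero K] {x : F} (hx : Transcendental K x)
  [FiniteDimensional K⟮x⟯ F]
include hx

theorem deg_one (v : Place K F) : v.deg = 1 := Fermat.Agent.S24.PD.deg_eq_one hx v

theorem degree_eq_sum' (D : Divisor K F) : Divisor.degree D = D.sum fun _ n => n := by
  rw [degree_eq_sum]
  refine Finsupp.sum_congr fun v _ => ?_
  rw [deg_one hx v]; simp

theorem degree_single_one (v : Place K F) :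
    Divisor.degree (Finsupp.single v (1 : ℤ)) = 1 := by
  rw [Divisor.degree_single, deg_one hx v]; simp

theorem eq_zero_of_nonneg_of_degree_le {D : Divisor K F} (h : 0 ≤ D)
    (hd : Divisor.degree D ≤ 0) : D = 0 := by
  ext v
  by_contra hv
  have hpos : 0 < D v := lt_of_le_of_ne (h v) (Ne.symm hv)
  have h1 : Finsupp.single v (1 : ℤ) ≤ D := by
    intro w
    by_cases hw : w = v
    · subst hw; simp only [Finsupp.single_eq_same]; omega
    · rw [Finsupp.single_eq_of_ne hw]; exact h w
  have h2 := degree_mono h1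
  rw [degree_single_one hx] at h2
  omega

theorem eq_of_le_of_degree_le {D D' : Divisor K F} (h : D ≤ D')
    (hd : Divisor.degree D' ≤ Divisor.degree D) : D = D' := by
  have h1 : D' - D = 0 := by
    apply eq_zero_of_nonneg_of_degree_le hx (sub_nonneg.mpr h)
    rw [map_sub]; omega
  exact (sub_eq_zero.mp h1).symm

theorem exists_single_of_degree_eq_one {D : Divisor K F} (h : 0 ≤ D)
    (hd : Divisor.degree D = 1) : ∃ v : Place K F, D = Finsupp.single v 1 := by
  have hne : D ≠ 0 := by
    rintro rfl
    simp at hd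
  obtain ⟨v, hv⟩ : ∃ v, D v ≠ 0 := by
    by_contra hall
    rw [not_exists] at hall
    apply hne
    ext v
    simpa using hall v
  have hpos : 0 < D v := lt_of_le_of_ne (h v) (Ne.symm hv)
  have h1 : Finsupp.single v (1 : ℤ) ≤ D := by
    intro w
    by_cases hw : w = v
    · subst hw; simp only [Finsupp.single_eq_same]; omega
    · rw [Finsupp.single_eq_of_ne hw]; exact h w
  refine ⟨v, (eq_of_le_of_degree_le hx h1 ?_).symm⟩
  rw [degree_single_one hx, hd]

theorem finite_rrs (D : Divisor K F) : FiniteDimensional K (riemannRochSpace D) :=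
  (riemann_cz hx D).1

theorem finrank_rrs_of_degree_gt {D : Divisor K F}
    (hD : 2 * (genusFF K F : ℤ) - 2 < Divisor.degree D) :
    (finrank K (riemannRochSpace D) : ℤ) = Divisor.degree D + 1 - genusFF K F :=
  ell_eq_of_degree_gt_cz hx hD

/-- `l(D) ≤ max (deg D) (2g - 1) + 1 - g`. -/
theorem finrank_rrs_le (D : Divisor K F) :
    (finrank K (riemannRochSpace D) : ℤ)
      ≤ max (Divisor.degree D) (2 * (genusFF K F : ℤ) - 1) + 1 - genusFF K F := by
  by_cases hD : 2 * (genusFF K F : ℤ) - 2 < Divisor.degree D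
  · rw [finrank_rrs_of_degree_gt hx hD]
    have := le_max_left (Divisor.degree D) (2 * (genusFF K F : ℤ) - 1)
    omega
  · rw [not_lt] at hD
    obtain ⟨v⟩ := nonempty_place_cz hx
    set m : ℤ := 2 * (genusFF K F : ℤ) - 1 - Divisor.degree D with hm
    have hm0 : 0 ≤ m := by omega
    set D' : Divisor K F := D + Finsupp.single v m with hD'
    have hle : D ≤ D' := by
      rw [hD', le_add_iff_nonneg_right]
      exact Finsupp.single_nonneg.mpr hm0
    have hdeg : Divisor.degree D' = 2 * (genusFF K F : ℤ) - 1 := by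
      rw [hD', map_add, Divisor.degree_single, deg_one hx v]
      simp only [Nat.cast_one, mul_one]
      omega
    have h1 : finrank K (riemannRochSpace D) ≤ finrank K (riemannRochSpace D') := by
      have := finite_rrs hx D'
      exact Submodule.finrank_mono (rrs_mono hle)
    have h2 := finrank_rrs_of_degree_gt hx (D := D') (by rw [hdeg]; omega)
    rw [hdeg] at h2
    have h3 : (finrank K (riemannRochSpace D) : ℤ) ≤ finrank K (riemannRochSpace D') := by
      exact_mod_cast h1
    have := le_max_right (Divisor.degree D) (2 * (genusFF K F : ℤ) - 1)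
    omega

/-- **Base point freeness**: for `deg D ≥ 2g` and every place `v` there is `f ∈ L(D)` with
`ord_v f = -D(v)` exactly. -/
theorem exists_mem_rrs_ord_eq {D : Divisor K F}
    (hD : 2 * (genusFF K F : ℤ) ≤ Divisor.degree D) (v : Place K F) :
    ∃ f ∈ riemannRochSpace D, f ≠ 0 ∧ v.ord f = -D v := by
  set D' : Divisor K F := D - Finsupp.single v 1 with hD'
  have hle : D' ≤ D := by
    rw [hD', sub_le_self_iff]
    exact Finsupp.single_nonneg.mpr zero_le_one
  have hdeg : Divisor.degree D' = Divisor.degree D - 1 := by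
    rw [hD', map_sub, degree_single_one hx]
  have h1 := finrank_rrs_of_degree_gt hx (D := D) (by omega)
  have h2 := finrank_rrs_of_degree_gt hx (D := D') (by omega)
  have hlt : riemannRochSpace D' < riemannRochSpace D := by
    refine lt_of_le_of_ne (rrs_mono hle) fun heq => ?_
    rw [heq] at h2
    omega
  obtain ⟨f, hfD, hfD'⟩ := SetLike.exists_of_lt hlt
  have hf0 : f ≠ 0 := fun h => hfD' (h ▸ Submodule.zero_mem _)
  refine ⟨f, hfD, hf0, ?_⟩
  have hge := (mem_rrs_of_ne_zero hf0).mp hfD v
  rw [mem_rrs_of_ne_zero hf0] at hfD'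
  rw [not_forall] at hfD'
  obtain ⟨w, hw⟩ := hfD'
  have hwv : w = v := by
    by_contra hne
    apply hw
    rw [hD', Finsupp.sub_apply, Finsupp.single_eq_of_ne hne, sub_zero]
    exact (mem_rrs_of_ne_zero hf0).mp hfD w
  subst hwv
  rw [hD', Finsupp.sub_apply, Finsupp.single_eq_same] at hw
  omega

/-- `L(D) ≤ L(D')` with `deg D ≥ 2g` forces `D ≤ D'`. -/
theorem le_of_rrs_le {D D' : Divisor K F} (hD : 2 * (genusFF K F : ℤ) ≤ Divisor.degree D)
    (h : riemannRochSpace D ≤ riemannRochSpace D') : D ≤ D' := by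
  intro v
  obtain ⟨f, hf, hf0, hord⟩ := exists_mem_rrs_ord_eq hx hD v
  have := (mem_rrs_of_ne_zero hf0).mp (h hf) v
  omega

theorem eq_of_rrs_eq {D D' : Divisor K F} (hD : 2 * (genusFF K F : ℤ) ≤ Divisor.degree D)
    (hD' : 2 * (genusFF K F : ℤ) ≤ Divisor.degree D')
    (h : riemannRochSpace D = riemannRochSpace D') : D = D' :=
  le_antisymm (le_of_rrs_le hx hD h.le) (le_of_rrs_le hx hD' h.ge)

/-- elements of `L(0)` are constants -/
theorem mem_range_of_mem_rrs_zero {f : F} (hf : f ∈ riemannRochSpace (0 : Divisor K F)) :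
    f ∈ Set.range (algebraMap K F) := by
  haveI := hasPrincipalDivisors_cz hx
  haveI : ∀ v : Place K F, v.FiniteResidue := finiteResidue_cz hx
  haveI := nonempty_place_cz hx
  exact Fermat.Agent.S24.PDiv.mem_range_of_isAlgebraic (isAlgebraic_of_mem_zero hf)

/-- the pole divisor of a nonconstant function has degree `[F : K(f)]` -/
theorem exists_poleDivisor {f : F} (hf : f ∉ Set.range (algebraMap K F)) :
    Transcendental K f ∧ ∃ _ : FiniteDimensional K⟮f⟯ F, ∃ B : Divisor K F,
      (∀ v : Place K F, B v = max 0 (-(v.ord f))) ∧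
        Divisor.degree B = finrank K⟮f⟯ F := by
  obtain ⟨h1, h2⟩ := Fermat.Agent.S24.PDiv.transcendental_and_finiteDimensional hx hf
  exact ⟨h1, h2, exists_poleDivisor_cz h1⟩

/-- the divisor of a function -/
theorem exists_divisor (f : F) : ∃ D : Divisor K F, ∀ v : Place K F, D v = v.ord f :=
  Fermat.Agent.S24.PDiv.exists_divisor_ord x hx f

theorem degree_divisor_eq_zero {f : F} {D : Divisor K F} (hD : ∀ v : Place K F, D v = v.ord f) :
    Divisor.degree D = 0 :=
  Fermat.Agent.S24.PDiv.degree_eq_zero_of_forall_ord x hx (deg_one hx) f D hD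

/-- every finite-dimensional subspace is contained in some `L(E)`, `E ≥ 0` -/
theorem exists_rrs_ge (W : Submodule K F) [FiniteDimensional K W] :
    ∃ E : Divisor K F, 0 ≤ E ∧ W ≤ riemannRochSpace E := by
  classical
  obtain ⟨s, hs⟩ := (Submodule.fg_iff_finiteDimensional W).mpr inferInstance
  choose Df hDf using fun f : F => exists_divisor hx f
  set E : Divisor K F := ∑ f ∈ s, (0 ⊔ -Df f) with hE
  have hnn : ∀ f, (0 : Divisor K F) ≤ 0 ⊔ -Df f := fun f => le_sup_left
  have hE0 : 0 ≤ E := Finset.sum_nonneg fun f _ => hnn f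
  refine ⟨E, hE0, ?_⟩
  rw [← hs, Submodule.span_le]
  intro f hf
  have hfs : f ∈ s := hf
  by_cases hf0 : f = 0
  · rw [hf0]; exact Submodule.zero_mem _
  show f ∈ riemannRochSpace E
  rw [mem_rrs_of_ne_zero hf0]
  intro v
  have h1 : (0 ⊔ -Df f) ≤ E := Finset.single_le_sum (f := fun f => (0 : Divisor K F) ⊔ -Df f)
    (fun g _ => hnn g) hfs
  have h2 := Finsupp.le_def.mp h1 v
  rw [Finsupp.sup_apply, Finsupp.neg_apply, hDf f v] at h2
  have h3 := le_max_right (0 : ℤ) (-(v.ord f))
  simp only [Finsupp.coe_zero, Pi.zero_apply] at h2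
  omega

end Curve

end Fermat.Agent.S27x.Spec.Deuring
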