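import Fermat.Agent.S27x.Spec.Deuring.Sp
import Fermat.Agent.S27x.Spec.Disc

/-!
# P-S27 block D, D5: residue discs for the Deuring specialisation `sp H`

Instantiation of the abstract `Spec/Disc.lean` for the chart-free specialisation map
`Deuring.sp H : Place K F → Place k κ` (`H : Hyp R`): fibre-sum formula, maximum principle, values
reduce, the residue disc of a point with a local coordinate.
-/

set_option autoImplicit false
set_option linter.unusedSectionVars false
set_option linter.style.haveILetI false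

noncomputable section

namespace Fermat.Agent.S27x.Spec.Deuring.Disc

open AlgebraicCurve IntermediateField Module
open Fermat.Agent.Gateway.C0 Fermat.Agent.Gateway.Red Fermat.Agent.Lib.RiemannRoch
open Fermat.Agent.S27x.Spec Fermat.Agent.S27x.Spec.Deuring

variable {K : Type*} [Field K] {A : ValuationSubring K} {F : Type*} [Field F] [Algebra K F]
  {O : ValuationSubring F} {k κ : Type*} [Field k] [Field κ] [Algebra k κ]
  [IsAlgClosed K] [CharZero K] [IsAlgClosed k] [CharZero k]
  {R : RedSetup A O k κ} (H : Hyp R)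
include H

theorem hasPrincipalDivisors : HasPrincipalDivisors K F := by
  obtain ⟨x, hx, hfin⟩ := H.ff
  haveI := hfin
  exact hasPrincipalDivisors_cz hx

theorem hasPrincipalDivisors_res : HasPrincipalDivisors k κ := by
  obtain ⟨x, hx, hfin⟩ := H.ffb
  haveI := hfin
  exact hasPrincipalDivisors_cz hx

/-- conservation of number for the Deuring specialisation, in the form consumed by `Spec/Inj` and
`Spec/Disc` -/
theorem spCompat : Inj.SpCompat R (Spec.Disc.spD (sp H)) :=
  fun _ _ hv _ hE w => spDiv_principal H hv hE w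

/-- every function regular at a place has a value there -/
theorem exists_hasValue (Q : Place K F) {f : F} (hf : f ∈ Q.toValuationSubring) :
    ∃ a : K, HasValue Q f a := by
  obtain ⟨x, hx, hfin⟩ := H.ff
  haveI := hfin
  obtain ⟨c, hc⟩ := Fermat.Agent.S24.PD.residue_surjective hx Q (IsLocalRing.residue _ ⟨f, hf⟩)
  exact ⟨c, hasValue_iff.mpr ⟨hf, hc.symm⟩⟩

/-- every function regular at a place of the special fibre has a value there -/
theorem exists_hasValue_res (w : Place k κ) {g : κ} (hg : g ∈ w.toValuationSubring) :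
    ∃ c : k, HasValue w g c := by
  obtain ⟨x, hx, hfin⟩ := H.ffb
  haveI := hfin
  obtain ⟨c, hc⟩ := Fermat.Agent.S24.PD.residue_surjective hx w (IsLocalRing.residue _ ⟨g, hg⟩)
  exact ⟨c, hasValue_iff.mpr ⟨hg, hc.symm⟩⟩

/-- **fibre-sum formula** -/
theorem finsum_ord_sp {f : F} (hf : f ∈ O) (hv : O.valuation f = 1) (w : Place k κ) :
    ({Q | sp H Q = w} ∩ {Q | Q.ord f ≠ 0}).Finite ∧
      ∑ᶠ Q ∈ {Q | sp H Q = w}, Q.ord f = w.ord (R.res ⟨f, hf⟩) :=
  haveI := hasPrincipalDivisors H
  Spec.Disc.finsum_ord_sp (spCompat H) hf hv w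

theorem exists_finset_sum_ord {f : F} (hf : f ∈ O) (hv : O.valuation f = 1) (w : Place k κ) :
    ∃ s : Finset (Place K F), (∀ Q, Q ∈ s ↔ sp H Q = w ∧ Q.ord f ≠ 0) ∧
      ∑ Q ∈ s, Q.ord f = w.ord (R.res ⟨f, hf⟩) :=
  haveI := hasPrincipalDivisors H
  Spec.Disc.exists_finset_sum_ord (spCompat H) hf hv w

theorem ord_le_ord_res {f : F} (hf : f ∈ O) (hv : O.valuation f = 1) {w : Place k κ}
    (hreg : Spec.Disc.RegularOn (sp H) w f) {Q : Place K F} (hQ : sp H Q = w) :
    Q.ord f ≤ w.ord (R.res ⟨f, hf⟩) :=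
  haveI := hasPrincipalDivisors H
  Spec.Disc.ord_le_ord_res (spCompat H) hf hv hreg hQ

theorem ord_eq_zero_of_ord_res_eq_zero {f : F} (hf : f ∈ O) (hv : O.valuation f = 1)
    {w : Place k κ} (hreg : Spec.Disc.RegularOn (sp H) w f) (h0 : w.ord (R.res ⟨f, hf⟩) = 0)
    {Q : Place K F} (hQ : sp H Q = w) : Q.ord f = 0 :=
  haveI := hasPrincipalDivisors H
  Spec.Disc.ord_eq_zero_of_ord_res_eq_zero (spCompat H) hf hv hreg h0 hQ

/-- **maximum principle** -/
theorem mem_of_hasValue {f : F} (hf : f ∈ O) {w : Place k κ}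
    (hreg : Spec.Disc.RegularOn (sp H) w f) {Q : Place K F} (hQ : sp H Q = w) {a : K}
    (ha : HasValue Q f a) : a ∈ A :=
  haveI := hasPrincipalDivisors H
  Spec.Disc.mem_of_hasValue (spCompat H) hf hreg hQ ha

/-- **values reduce** -/
theorem hasValue_sp {f : F} (hf : f ∈ O) {w : Place k κ}
    (hreg : Spec.Disc.RegularOn (sp H) w f) {Q : Place K F} (hQ : sp H Q = w) {a : A}
    (ha : HasValue Q f (a : K)) : HasValue w (R.res ⟨f, hf⟩) (R.π a) :=
  haveI := hasPrincipalDivisors H
  Spec.Disc.hasValue_sp (spCompat H) hf hreg hQ ha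

/-- **the residue disc** of a point `w` where `res z - c̄` is a uniformiser: for every `ρ ∈ A` over
`c̄` exactly one place `Q` of the disc has `z(Q) = ρ`, and the zero is simple. -/
theorem exists_sp_ord_eq_one {z : F} (hz : z ∈ O) {w : Place k κ}
    (hreg : Spec.Disc.RegularOn (sp H) w z) {cb : k}
    (hunif : w.ord (R.res ⟨z, hz⟩ - algebraMap k κ cb) = 1) (ρ : A) (hρ : R.π ρ = cb) :
    ∃ Q : Place K F, sp H Q = w ∧ Q.ord (z - algebraMap K F (ρ : K)) = 1 ∧
      ∀ Q' : Place K F, sp H Q' = w → Q' ≠ Q → Q'.ord (z - algebraMap K F (ρ : K)) = 0 :=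
  haveI := hasPrincipalDivisors H
  Spec.Disc.exists_sp_ord_eq_one (spCompat H) hz hreg hunif ρ hρ

/-- **`z` is injective on the residue disc** -/
theorem disc_injective {z : F} (hz : z ∈ O) {w : Place k κ}
    (hreg : Spec.Disc.RegularOn (sp H) w z) {cb : k}
    (hunif : w.ord (R.res ⟨z, hz⟩ - algebraMap k κ cb) = 1) {Q Q' : Place K F}
    (hQ : sp H Q = w) (hQ' : sp H Q' = w) {a : K} (ha : HasValue Q z a)
    (ha' : HasValue Q' z a) : Q = Q' :=
  haveI := hasPrincipalDivisors H
  Spec.Disc.disc_injective (spCompat H) hz hreg hunif hQ hQ' ha ha'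

/-- **the residue disc is `c̄ + 𝔪`**: the value of `z` at a point of the disc exists, lies in `A`
and reduces to `c̄`. -/
theorem exists_value_of_sp_eq {z : F} (hz : z ∈ O) {w : Place k κ}
    (hreg : Spec.Disc.RegularOn (sp H) w z) {cb : k}
    (hunif : w.ord (R.res ⟨z, hz⟩ - algebraMap k κ cb) = 1) {Q : Place K F} (hQ : sp H Q = w) :
    ∃ ρ : A, R.π ρ = cb ∧ HasValue Q z (ρ : K) :=
  haveI := hasPrincipalDivisors H
  Spec.Disc.exists_value_of_sp_eq (spCompat H) hz hreg hunif hQ (exists_hasValue H Q (hreg Q hQ))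

/-- the specialisation of the unique pole -/
theorem sp_eq_of_ord_res_neg {f : F} (hf : f ∈ O) {P : Place K F}
    (hP : ∀ Q : Place K F, Q.ord f < 0 → Q = P) {w : Place k κ}
    (hneg : w.ord (R.res ⟨f, hf⟩) < 0) : sp H P = w :=
  haveI := hasPrincipalDivisors H
  Spec.Disc.sp_eq_of_ord_res_neg (spCompat H) hf hP hneg

end Fermat.Agent.S27x.Spec.Deuring.Disc
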