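import Fermat.Agent.Gateway.C0.Count
import Fermat.Agent.Gateway.GoodRed.GaussAbstract

/-!
# P-S27 / G4, Deuring reduction of divisors (B): the fundamental inequality

`R : RedSetup A O k κ` with surjective residue map.  For `f ∈ O` whose reduction `f̄` is
transcendental over `k` we have `[κ : k(f̄)] ≤ [F : K(f)]` (`rank_le_finrank`,
`finrank_le_finrank`): a `k(f̄)`-linearly independent family of `κ` lifts to a `K(f)`-linearly
independent family of `F` (Gauss normalisation of a relation, `GoodRed.exists_content`).
-/

set_option autoImplicit false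
set_option linter.unusedSectionVars false
set_option linter.style.haveILetI false

noncomputable section

namespace Fermat.Agent.S27x.Spec.Deuring

open Fermat.Agent.Gateway.C0 IntermediateField Polynomial Module

variable {K : Type*} [Field K] {A : ValuationSubring K} {F : Type*} [Field F] [Algebra K F]
  {O : ValuationSubring F} {k κ : Type*} [Field k] [Field κ] [Algebra k κ]
  (R : RedSetup A O k κ)

/-- the structure map `A → O` of a residue setup -/
def baseHom : A →+* O where
  toFun a := ⟨algebraMap K F a, R.algebraMap_mem a⟩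
  map_one' := Subtype.ext (map_one _)
  map_mul' _ _ := Subtype.ext (map_mul _ _ _)
  map_zero' := Subtype.ext (map_zero _)
  map_add' _ _ := Subtype.ext (map_add _ _ _)

@[simp] theorem coe_baseHom (a : A) : ((baseHom R a : O) : F) = algebraMap K F a := rfl

theorem res_baseHom (a : A) : R.res (baseHom R a) = algebraMap k κ (R.π a) :=
  R.res_algebraMap a

/-- evaluation of an integral polynomial at a point of `O`, as an element of `O` -/
def evalO (f : O) (P : A[X]) : O := P.eval₂ (baseHom R) f

theorem coe_evalO (f : O) (P : A[X]) :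
    ((evalO R f P : O) : F) = aeval (f : F) (P.map A.subtype) := by
  unfold evalO
  have h := Polynomial.hom_eval₂ P (baseHom R) O.subtype f
  rw [aeval_def, eval₂_map]
  exact h

theorem res_evalO (f : O) (P : A[X]) :
    R.res (evalO R f P) = aeval (R.res f) (P.map R.π) := by
  unfold evalO
  rw [Polynomial.hom_eval₂, aeval_def, eval₂_map]
  congr 1
  ext a
  exact res_baseHom R a

/-- if the reduction of `f ∈ O` is transcendental over `k`, then `f` is transcendental over `K` -/
theorem transcendental_of_res {f : O} (hfb : Transcendental k (R.res f)) :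
    Transcendental K (f : F) := by
  intro halg
  obtain ⟨p, hp0, hp⟩ := halg
  obtain ⟨c, hc, P', hP', ⟨⟩, hi⟩ := Fermat.Agent.Gateway.GoodRed.exists_content A R.π
    (fun _ : Unit => p) ⟨(), hp0⟩
  have h1 : ((evalO R f (P' ()) : O) : F) = 0 := by
    rw [coe_evalO, hP' (), map_mul, hp, mul_zero]
  have h2 : evalO R f (P' ()) = 0 := Subtype.ext h1
  have h3 := res_evalO R f (P' ())
  rw [h2, map_zero] at h3
  exact hi ((transcendental_iff.mp hfb) _ h3.symm)

theorem aeval_mem_adjoin_simple {L E : Type*} [Field L] [Field E] [Algebra L E] (α : E)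
    (p : L[X]) : aeval α p ∈ L⟮α⟯ := by
  rw [IntermediateField.mem_adjoin_simple_iff]
  exact ⟨p, 1, by simp⟩

variable (hres : Function.Surjective R.res)
include hres

/-- **Lifting linear independence.** -/
theorem linearIndependent_lift {f : O} (hfb : Transcendental k (R.res f))
    {ι : Type*} [Fintype ι] (y : ι → O)
    (hy : LinearIndependent k⟮R.res f⟯ fun i => R.res (y i)) :
    LinearIndependent K⟮(f : F)⟯ fun i => ((y i : O) : F) := by
  classical
  have hf : Transcendental K (f : F) := transcendental_of_res R hfb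
  have hfne : ∀ s : K[X], s ≠ 0 → aeval (f : F) s ≠ 0 := fun s hs h =>
    hs ((transcendental_iff.mp hf) s h)
  rw [Fintype.linearIndependent_iff]
  intro c hsum
  by_contra hne
  rw [not_forall] at hne
  -- write the coefficients as fractions
  have hfrac : ∀ i, ∃ r s : K[X], s ≠ 0 ∧
      ((c i : K⟮(f : F)⟯) : F) = aeval (f : F) r / aeval (f : F) s := by
    intro i
    obtain ⟨r, s, hrs⟩ := (IntermediateField.mem_adjoin_simple_iff K _).mp (c i).2
    by_cases hs : s = 0
    · refine ⟨0, 1, one_ne_zero, ?_⟩
      rw [hrs, hs]; simp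
    · exact ⟨r, s, hs, hrs⟩
  choose r s hs hrs using hfrac
  set q : K[X] := ∏ j, s j with hq
  have hq0 : q ≠ 0 := Finset.prod_ne_zero_iff.mpr fun j _ => hs j
  set p : ι → K[X] := fun i => r i * ∏ j ∈ Finset.univ.erase i, s j with hp
  have hcp : ∀ i, ((c i : K⟮(f : F)⟯) : F) * aeval (f : F) q = aeval (f : F) (p i) := by
    intro i
    rw [hrs i, hq, hp, ← Finset.mul_prod_erase Finset.univ s (Finset.mem_univ i)]
    simp only [map_mul]
    field_simp [hfne (s i) (hs i)]
  have hsum' : ∑ i, aeval (f : F) (p i) * ((y i : O) : F) = 0 := by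
    have h1 : ∑ i, aeval (f : F) (p i) * ((y i : O) : F)
        = (∑ i, c i • ((y i : O) : F)) * aeval (f : F) q := by
      rw [Finset.sum_mul]
      refine Finset.sum_congr rfl fun i _ => ?_
      rw [← hcp i, IntermediateField.smul_def, smul_eq_mul]
      ring
    rw [h1, hsum, zero_mul]
  have hpne : ∃ i, p i ≠ 0 := by
    by_contra hall
    rw [not_exists] at hall
    simp only [not_not] at hall
    obtain ⟨i, hi⟩ := hne
    apply hi
    have h1 := hcp i
    rw [hall i, map_zero] at h1
    have h2 : ((c i : K⟮(f : F)⟯) : F) = 0 :=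
      (mul_eq_zero.mp h1).resolve_right (hfne q hq0)
    exact Subtype.ext h2
  obtain ⟨c₀, hc₀, P', hP', i₀, hi₀⟩ :=
    Fermat.Agent.Gateway.GoodRed.exists_content A R.π p hpne
  have hO : ∑ i, evalO R f (P' i) * y i = 0 := by
    apply Subtype.ext
    rw [ZeroMemClass.coe_zero]
    have : ((∑ i, evalO R f (P' i) * y i : O) : F)
        = ∑ i, ((evalO R f (P' i) : O) : F) * ((y i : O) : F) := by
      rw [AddSubmonoidClass.coe_finsetSum]
      rfl
    rw [this]
    have h2 : ∀ i, ((evalO R f (P' i) : O) : F) * ((y i : O) : F)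
        = algebraMap K F c₀⁻¹ * (aeval (f : F) (p i) * ((y i : O) : F)) := by
      intro i
      rw [coe_evalO, hP' i, map_mul, aeval_C]
      ring
    simp_rw [h2]
    rw [← Finset.mul_sum, hsum', mul_zero]
  have hκ : ∑ i, (⟨aeval (R.res f) ((P' i).map R.π), aeval_mem_adjoin_simple _ _⟩ :
      k⟮R.res f⟯) • R.res (y i) = 0 := by
    have := congrArg R.res hO
    rw [map_sum, map_zero] at this
    simp_rw [map_mul, res_evalO] at this
    exact this
  have h0 := (Fintype.linearIndependent_iff.mp hy) _ hκ i₀
  have h1 : aeval (R.res f) ((P' i₀).map R.π) = 0 := congrArg Subtype.val h0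
  exact hi₀ ((transcendental_iff.mp hfb) _ h1)

/-- **The fundamental inequality** `[κ : k(f̄)] ≤ [F : K(f)]`, rank form. -/
theorem rank_le_finrank {f : O} (hfb : Transcendental k (R.res f))
    [FiniteDimensional K⟮(f : F)⟯ F] :
    Module.rank k⟮R.res f⟯ κ ≤ (finrank K⟮(f : F)⟯ F : Cardinal) := by
  classical
  apply rank_le
  intro s hs
  choose lift hlift using hres
  have hy : LinearIndependent k⟮R.res f⟯ fun i : s => R.res (lift (i : κ)) := by
    have : (fun i : s => R.res (lift (i : κ))) = fun i : s => (i : κ) := by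
      funext i; exact hlift _
    rw [this]; exact hs
  have h1 := linearIndependent_lift R (fun y => ⟨lift y, hlift y⟩) hfb (fun i : s => lift (i : κ)) hy
  have h2 := h1.fintype_card_le_finrank
  simpa using h2

/-- **The fundamental inequality** `[κ : k(f̄)] ≤ [F : K(f)]`. -/
theorem finite_and_finrank_le {f : O} (hfb : Transcendental k (R.res f))
    [FiniteDimensional K⟮(f : F)⟯ F] :
    Module.Finite k⟮R.res f⟯ κ ∧ finrank k⟮R.res f⟯ κ ≤ finrank K⟮(f : F)⟯ F := by
  have h := rank_le_finrank R hres hfb
  refine ⟨?_, ?_⟩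
  · rw [← Module.rank_lt_aleph0_iff]
    exact lt_of_le_of_lt h Cardinal.natCast_lt_aleph0
  · exact Module.finrank_le_of_rank_le h

end Fermat.Agent.S27x.Spec.Deuring
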