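import Fermat.Agent.S27x.Spec.Deuring.Pic
import Fermat.Agent.S27x.Spec.Inj

/-!
# P-S27 / G4, Deuring reduction of divisors (F): the good-reduction facts of (C0) are theorems

`R : RedSetup A O k κ` with `H : Hyp R`.

* `spDiv_apply_eq_sum`: the local formula `(sp D)(w) = ∑_{sp v = w} D(v)`;
* `spDiv_poleDiv`: if `x ∈ O` has transcendental residue and full residue degree
  (`[F : K(x)] ≤ [κ : k(x̄)]`), the pole divisor of `x` specialises to the pole divisor of `x̄`
  (no cancellation);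
* `isIntegral_res`: reduction then preserves integrality over `K[x]`;
* `goodFacts`: `Inj.GoodFacts R x hxO (res x)`;
* `exists_good_coordinate`: such `x` exist;
* `spPic0_injOn_torsion`, `card_torsion_le`: **the specialisation of divisor classes is injective
  on `n`-torsion**, from `Hyp R` alone.
-/

set_option autoImplicit false
set_option linter.unusedSectionVars false
set_option linter.style.haveILetI false

noncomputable section

namespace Fermat.Agent.S27x.Spec.Deuring

open AlgebraicCurve IntermediateField Module Fermat.Agent.Gateway.C0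
  Fermat.Agent.Lib.RiemannRoch

variable {K : Type*} [Field K] {A : ValuationSubring K} {F : Type*} [Field F] [Algebra K F]
  {O : ValuationSubring F} {k κ : Type*} [Field k] [Field κ] [Algebra k κ]
  [IsAlgClosed K] [CharZero K] [IsAlgClosed k] [CharZero k]
  {R : RedSetup A O k κ} (H : Hyp R)
include H

open Classical in
/-- the local formula for the specialisation of a divisor -/
theorem spDiv_apply_eq_sum (D : Divisor K F) (w : Place k κ) :
    spDiv H D w = ∑ v ∈ D.support with sp H v = w, D v := by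
  rw [spDiv_apply, Finsupp.mapDomain, Finsupp.sum, Finsupp.finsetSum_apply,
    Finset.sum_filter]
  refine Finset.sum_congr rfl fun v _ => ?_
  rw [Finsupp.single_apply]

theorem spDiv_apply_nonneg {D : Divisor K F} {w : Place k κ}
    (h : ∀ v : Place K F, sp H v = w → 0 ≤ D v) : 0 ≤ spDiv H D w := by
  classical
  rw [spDiv_apply_eq_sum]
  refine Finset.sum_nonneg fun v hv => h v (Finset.mem_filter.mp hv).2

theorem eq_zero_of_spDiv_apply_eq_zero {D : Divisor K F} (hD : 0 ≤ D) {w : Place k κ}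
    (h : spDiv H D w = 0) {v : Place K F} (hv : sp H v = w) : D v = 0 := by
  have h1 : Finsupp.single v (D v) ≤ D := by
    intro u
    by_cases hu : u = v
    · subst hu; simp
    · rw [Finsupp.single_eq_of_ne hu]; exact hD u
  have h2 := spDiv_mono H h1 w
  rw [spDiv_single, hv, Finsupp.single_eq_same, h] at h2
  exact le_antisymm h2 (hD v)

/-- **No cancellation**: for `x ∈ O` with transcendental residue and full residue degree the pole
divisor of `x` specialises to the pole divisor of `res x`. -/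
theorem spDiv_poleDiv {x : F} (hxO : x ∈ O) (hxbt : Transcendental k (R.res ⟨x, hxO⟩))
    [FiniteDimensional K⟮x⟯ F] [FiniteDimensional k⟮R.res ⟨x, hxO⟩⟯ κ]
    (hdeg : finrank K⟮x⟯ F ≤ finrank k⟮R.res ⟨x, hxO⟩⟯ κ)
    {B : Divisor K F} (hB : ∀ v : Place K F, B v = max 0 (-(v.ord x)))
    (w : Place k κ) : spDiv H B w = max 0 (-(w.ord (R.res ⟨x, hxO⟩))) := by
  obtain ⟨xb', hxb', hfinb'⟩ := H.ffb
  haveI := hfinb'
  set xb := R.res ⟨x, hxO⟩ with hxb
  have hxt : Transcendental K x := transcendental_of_res R (f := ⟨x, hxO⟩) hxbt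
  have hres0 : xb ≠ 0 := by
    intro h0
    exact hxbt (h0 ▸ isAlgebraic_zero)
  have hval : O.valuation x = 1 := (res_ne_zero_iff R hxO).mp hres0
  obtain ⟨Dx, hDx⟩ := exists_divisor hxt x
  obtain ⟨Bb, hBb, hBbdeg⟩ := exists_poleDivisor_cz hxbt
  obtain ⟨B', hB', hB'deg⟩ := exists_poleDivisor_cz hxt
  have hBB' : B = B' := by
    ext v; rw [hB v, hB' v]
  have hB0 : 0 ≤ B := by
    intro v; rw [hB v]; exact le_max_left _ _
  -- `Bb ≤ sp B`
  have hle : Bb ≤ spDiv H B := by
    intro u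
    rw [hBb u]
    have h1 : spDiv H Dx u = u.ord xb := spDiv_principal H hval hDx u
    have hZ0 : (0 : Divisor K F) ≤ B + Dx := by
      intro v
      rw [Finsupp.add_apply, hB v, hDx v]
      simp only [Finsupp.coe_zero, Pi.zero_apply]
      have := le_max_right (0 : ℤ) (-(v.ord x))
      omega
    have h2 := spDiv_nonneg H hZ0 u
    rw [map_add, Finsupp.add_apply, h1] at h2
    have h3 := spDiv_nonneg H hB0 u
    simp only [Finsupp.coe_zero, Pi.zero_apply] at h2 h3
    exact max_le h3 (by omega)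
  have hdeg' : Divisor.degree (spDiv H B) ≤ Divisor.degree Bb := by
    rw [degree_spDiv, hBB', hB'deg, hBbdeg]
    exact_mod_cast hdeg
  have heq := eq_of_le_of_degree_le hxbt hle hdeg'
  rw [← heq, hBb w]

/-- **Reduction preserves integrality over `K[x]`** (for `x` of full residue degree). -/
theorem isIntegral_res {x : F} (hxO : x ∈ O) (hxbt : Transcendental k (R.res ⟨x, hxO⟩))
    [FiniteDimensional K⟮x⟯ F] [FiniteDimensional k⟮R.res ⟨x, hxO⟩⟯ κ]
    (hdeg : finrank K⟮x⟯ F ≤ finrank k⟮R.res ⟨x, hxO⟩⟯ κ)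
    (f : F) (hf : f ∈ O) (hint : IsIntegral (Algebra.adjoin K {x}) f) :
    IsIntegral (Algebra.adjoin k {R.res ⟨x, hxO⟩}) (R.res ⟨f, hf⟩) := by
  have hxt : Transcendental K x := transcendental_of_res R (f := ⟨x, hxO⟩) hxbt
  rw [Fermat.Agent.Gateway.GoodRed.PlacesIntegral.isIntegral_iff_forall_ord_nonneg x hxt] at hint
  rw [Fermat.Agent.Gateway.GoodRed.PlacesIntegral.isIntegral_iff_forall_ord_nonneg _ hxbt]
  intro w hw
  by_cases hres : R.res ⟨f, hf⟩ = 0
  · rw [hres]; simp
  have hval : O.valuation f = 1 := (res_ne_zero_iff R hf).mp hres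
  obtain ⟨Df, hDf⟩ := exists_divisor hxt f
  obtain ⟨B, hB, -⟩ := exists_poleDivisor_cz hxt
  have hB0 : 0 ≤ B := by
    intro v; rw [hB v]; exact le_max_left _ _
  have hBw : spDiv H B w = 0 := by
    rw [spDiv_poleDiv H hxO hxbt hdeg hB w]
    exact max_eq_left (by omega)
  rw [← spDiv_principal H hval hDf w]
  apply spDiv_apply_nonneg H
  intro v hv
  have h0 := eq_zero_of_spDiv_apply_eq_zero H hB0 hBw hv
  rw [hB v] at h0
  rw [hDf v]
  apply hint v
  have := le_max_right (0 : ℤ) (-(v.ord x))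
  omega

/-- **The five good-reduction facts of (C0)** hold for every `x ∈ O` of full residue degree. -/
theorem goodFacts {x : F} (hxO : x ∈ O) (hxbt : Transcendental k (R.res ⟨x, hxO⟩))
    [FiniteDimensional K⟮x⟯ F] [FiniteDimensional k⟮R.res ⟨x, hxO⟩⟯ κ]
    (hdeg : finrank K⟮x⟯ F ≤ finrank k⟮R.res ⟨x, hxO⟩⟯ κ) :
    Fermat.Agent.S27x.Spec.Inj.GoodFacts R x hxO (R.res ⟨x, hxO⟩) := by
  have hxt : Transcendental K x := transcendental_of_res R (f := ⟨x, hxO⟩) hxbt
  have hres0 : R.res ⟨x, hxO⟩ ≠ 0 := by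
    intro h0
    exact hxbt (h0 ▸ isAlgebraic_zero)
  have hval : O.valuation x = 1 := (res_ne_zero_iff R hxO).mp hres0
  have hx0 : x ≠ 0 := by
    rintro rfl
    exact hxt isAlgebraic_zero
  have hxiO : x⁻¹ ∈ O := by
    rw [← O.valuation_le_one_iff, map_inv₀, hval, inv_one]
  have hresinv : R.res ⟨x⁻¹, hxiO⟩ = (R.res ⟨x, hxO⟩)⁻¹ := by
    have h1 : (⟨x, hxO⟩ : O) * ⟨x⁻¹, hxiO⟩ = 1 := Subtype.ext (mul_inv_cancel₀ hx0)
    have h2 := congrArg R.res h1
    rw [map_mul, map_one] at h2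
    exact eq_inv_of_mul_eq_one_right h2
  refine ⟨isIntegral_res H hxO hxbt hdeg, ?_, (finite_and_finrank_le R H.res_surj
    (f := ⟨x, hxO⟩) hxbt).2, H.genus_le, H.cart⟩
  -- integrality over `K[1/x]`
  intro f hf hint
  have hxbti : Transcendental k (R.res ⟨x⁻¹, hxiO⟩) := by
    rw [hresinv]
    exact Fermat.Agent.S24.PD.transcendental_inv hxbt
  haveI : FiniteDimensional K⟮x⁻¹⟯ F := by
    rw [Fermat.Agent.Gateway.C0.adjoin_simple_inv_eq]; infer_instance
  haveI : FiniteDimensional k⟮R.res ⟨x⁻¹, hxiO⟩⟯ κ := by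
    rw [hresinv, Fermat.Agent.Gateway.C0.adjoin_simple_inv_eq]; infer_instance
  have hdegi : finrank K⟮x⁻¹⟯ F ≤ finrank k⟮R.res ⟨x⁻¹, hxiO⟩⟯ κ := by
    rw [hresinv, Fermat.Agent.Gateway.C0.adjoin_simple_inv_eq,
      Fermat.Agent.Gateway.C0.adjoin_simple_inv_eq]
    exact hdeg
  have := isIntegral_res H hxiO hxbti hdegi f hf hint
  rw [hresinv] at this
  exact this

/-- **Good coordinates exist**: some `x ∈ O` has transcendental residue and full residue degree. -/
theorem exists_good_coordinate : ∃ (x : F) (hxO : x ∈ O),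
    Transcendental k (R.res ⟨x, hxO⟩) ∧ ∃ (_ : FiniteDimensional K⟮x⟯ F)
      (_ : FiniteDimensional k⟮R.res ⟨x, hxO⟩⟯ κ),
      finrank K⟮x⟯ F ≤ finrank k⟮R.res ⟨x, hxO⟩⟯ κ := by
  obtain ⟨x₀, hx₀, hfin⟩ := H.ff
  haveI := hfin
  obtain ⟨xb, hxb, hfinb⟩ := H.ffb
  haveI := hfinb
  set D := baseDiv H with hD
  have hD0 : 0 ≤ D := baseDiv_nonneg H
  have hDdeg : thr K F k κ ≤ Divisor.degree D := thr_le_degree_baseDiv H
  obtain ⟨hE0, hEdeg, hEred⟩ := redDiv_spec H hD0 hDdeg
  set E := redDiv H D with hE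
  have h2g : 2 * (genusFF k κ : ℤ) ≤ Divisor.degree E := by
    rw [hEdeg]; exact (two_genus_le_thr H).trans hDdeg
  haveI := finite_rrs hxb E
  obtain ⟨E', hE'0, hWE', f, hfW, hf0, hE'f⟩ :=
    exists_generic hxb (riemannRochSpace E) (one_mem_rrs hE0)
  have hEE' : E = E' := by
    apply le_antisymm (le_of_rrs_le hxb h2g hWE')
    intro v
    rw [hE'f v]
    have h1 := (mem_rrs_of_ne_zero hf0).mp hfW v
    have h2 := hE0 v
    simp only [Finsupp.coe_zero, Pi.zero_apply] at h2
    exact max_le h2 (by omega)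
  have hthr1 : 1 ≤ thr K F k κ := by
    unfold thr
    have h1 : (0 : ℤ) ≤ genusFF K F := Int.natCast_nonneg _
    have h2 : (0 : ℤ) ≤ genusFF k κ := Int.natCast_nonneg _
    omega
  have hfc : f ∉ Set.range (algebraMap k κ) := by
    rintro ⟨c, rfl⟩
    have hE'zero : E' = 0 := by
      ext v
      rw [hE'f v, Fermat.Agent.S24.PDiv.ord_algebraMap]
      simp
    rw [← hEE'] at hE'zero
    rw [hE'zero, map_zero] at hEdeg
    omega
  obtain ⟨hft, hffin, B, hB, hBdeg⟩ := exists_poleDivisor hxb hfc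
  have hBE : B = E := by
    ext v
    rw [hB v, hEE', hE'f v]
  -- lift `f`
  rw [← hEred] at hfW
  obtain ⟨y, hyO, hyD, hyf⟩ := hfW
  have hfb : Transcendental k (R.res ⟨y, hyO⟩) := by rw [hyf]; exact hft
  have hyt : Transcendental K y := transcendental_of_res R (f := ⟨y, hyO⟩) hfb
  have hyfin : FiniteDimensional K⟮y⟯ F :=
    Fermat.Agent.S24.PDiv.finiteDimensional_adjoin_simple_of_transcendental hx₀ hyt
  have hfinb' : FiniteDimensional k⟮R.res ⟨y, hyO⟩⟯ κ := by rw [hyf]; exact hffin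
  refine ⟨y, hyO, hfb, hyfin, hfinb', ?_⟩
  obtain ⟨By, hBy, hBydeg⟩ := exists_poleDivisor_cz hyt
  have hy0 : y ≠ 0 := by
    rintro rfl
    exact hyt isAlgebraic_zero
  have hByD : By ≤ D := by
    intro v
    rw [hBy v]
    have h1 := (mem_rrs_of_ne_zero hy0).mp hyD v
    have h2 := hD0 v
    simp only [Finsupp.coe_zero, Pi.zero_apply] at h2
    exact max_le h2 (by omega)
  have h3 := degree_mono hByD
  rw [hBydeg, ← hEdeg, ← hBE, hBdeg] at h3
  have h4 : finrank K⟮y⟯ F ≤ finrank k⟮f⟯ κ := by exact_mod_cast h3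
  rw [hyf]
  exact h4

/-- `spDiv H` is compatible with the reduction of functions in the sense of (D6). -/
theorem spCompat : Fermat.Agent.S27x.Spec.Inj.SpCompat R (spDiv H) :=
  fun _ _ hval _ hE w => spDiv_principal H hval hE w

/-- **The specialisation of divisor classes is injective on `n`-torsion.** -/
theorem spPic0_injOn_torsion {n : ℕ} (hn : 0 < n) :
    Set.InjOn (spPic0 H) (Pic0.torsion K F n : Set (Pic0 K F)) := by
  obtain ⟨x, hxO, hxbt, hfin, hfinb, hdeg⟩ := exists_good_coordinate H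
  haveI := hfin
  haveI := hfinb
  have hxt : Transcendental K x := transcendental_of_res R (f := ⟨x, hxO⟩) hxbt
  exact Fermat.Agent.S27x.Spec.Inj.sp_injOn_torsion R hxt hxO rfl hxbt
    (goodFacts H hxO hxbt hdeg) (Fermat.Agent.S27x.Spec.Inj.isUnit_natCast R hn) H.res_surj
    (spDiv H) (spCompat H) (spPic0 H) (spPic0_mk' H)

/-- **Upper bound for the torsion of the generic fibre.** -/
theorem card_torsion_le {n : ℕ} (hn : 0 < n) [Finite (Pic0.torsion k κ n)] :
    Nat.card (Pic0.torsion K F n) ≤ Nat.card (Pic0.torsion k κ n) := by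
  refine Nat.card_le_card_of_injective
    (fun a => (⟨spPic0 H a.1, spPic0_mem_torsion H a.2⟩ : Pic0.torsion k κ n)) ?_
  intro a b hab
  have h1 : spPic0 H a.1 = spPic0 H b.1 := congrArg Subtype.val hab
  exact Subtype.ext (spPic0_injOn_torsion H hn a.2 b.2 h1)

end Fermat.Agent.S27x.Spec.Deuring
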