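import Fermat.Agent.Gateway.C0.Count

/-!
# P-S27 / G4, Deuring reduction of divisors (A): reduction of cartesian lattices

`R : RedSetup A O k κ`.  For a finite-dimensional `K`-subspace `V ⊆ F` whose lattice `V ∩ O` is
finitely generated over `A`, the reduction `R.redLat V ⊆ κ` is finite-dimensional over `k` of
dimension exactly `dim_K V` (`finrank_redLat`).  Formal properties of `redLat`: monotonicity,
products, multiplication by a unit of `O`.
-/

set_option autoImplicit false
set_option linter.unusedSectionVars false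
set_option linter.style.haveILetI false

noncomputable section

namespace Fermat.Agent.S27x.Spec.Deuring

open Fermat.Agent.Gateway.C0 IsLocalRing Module

variable {K : Type*} [Field K] {A : ValuationSubring K} {F : Type*} [Field F] [Algebra K F]
  {O : ValuationSubring F} {k κ : Type*} [Field k] [Field κ] [Algebra k κ]
  (R : RedSetup A O k κ)

theorem redLat_mono {V W : Submodule K F} (h : V ≤ W) : R.redLat V ≤ R.redLat W := by
  rintro _ ⟨x, hx, hxV, rfl⟩
  exact ⟨x, hx, h hxV, rfl⟩

theorem mul_mem_redLat {V W U : Submodule K F} (hU : ∀ f ∈ V, ∀ g ∈ W, f * g ∈ U)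
    {y y' : κ} (hy : y ∈ R.redLat V) (hy' : y' ∈ R.redLat W) : y * y' ∈ R.redLat U := by
  obtain ⟨x, hx, hxV, rfl⟩ := hy
  obtain ⟨x', hx', hxW, rfl⟩ := hy'
  exact ⟨x * x', mul_mem hx hx', hU x hxV x' hxW, map_mul R.res ⟨x, hx⟩ ⟨x', hx'⟩⟩

/-- multiplication by a unit `f` of `O` with `f V = W` turns `redLat V` into `redLat W` -/
theorem mem_redLat_of_mul_unit {V W : Submodule K F} {f : F} (hf : f ∈ O)
    (h1 : ∀ g ∈ V, f * g ∈ W) {y : κ} (hy : y ∈ R.redLat V) :
    R.res ⟨f, hf⟩ * y ∈ R.redLat W := by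
  obtain ⟨x, hx, hxV, rfl⟩ := hy
  exact ⟨f * x, mul_mem hf hx, h1 x hxV, map_mul R.res ⟨f, hf⟩ ⟨x, hx⟩⟩

theorem one_mem_redLat {V : Submodule K F} (h : (1 : F) ∈ V) : (1 : κ) ∈ R.redLat V :=
  ⟨1, O.one_mem, h, map_one R.res⟩

/-- `res x = 0` iff `x` is not a unit of `O` (for `x ∈ O`) -/
theorem res_ne_zero_iff {x : F} (hx : x ∈ O) : R.res ⟨x, hx⟩ ≠ 0 ↔ O.valuation x = 1 := by
  rw [Ne, R.res_ker ⟨x, hx⟩, not_lt]
  constructor
  · intro h
    exact le_antisymm ((O.valuation_le_one_iff x).mpr hx) h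
  · intro h; exact h.ge

/-- **Reduction preserves the dimension of cartesian lattices.** -/
theorem finrank_redLat (V : Submodule K F) [FiniteDimensional K V] (hfg : (R.lat V).FG) :
    FiniteDimensional k (R.redLat V) ∧ finrank k (R.redLat V) = finrank K V := by
  classical
  set Λ := R.lat V with hΛ
  have hΛO : ∀ x ∈ Λ, x ∈ O := fun x hx => hx.2
  have : Module.Finite A Λ := Module.Finite.iff_fg.mpr hfg
  have : Module.Flat A Λ :=
    Module.Flat.flat_iff_torsion_eq_bot_of_isBezout.mpr
      (Submodule.isTorsionFree_iff_torsion_eq_bot.mp inferInstance)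
  have : Module.Free A Λ := Module.free_of_flat_of_isLocalRing
  set ι := Module.Free.ChooseBasisIndex A Λ
  set b : Basis ι A Λ := Module.Free.chooseBasis A Λ with hb
  have hbO : ∀ i, ((b i : Λ) : F) ∈ O := fun i => hΛO _ (b i).2
  have hbV : ∀ i, ((b i : Λ) : F) ∈ V := fun i => (b i).2.1
  -- the basis is linearly independent over `K`
  have hliA : LinearIndependent A fun i => ((b i : Λ) : F) :=
    b.linearIndependent.map' Λ.subtype (Submodule.ker_subtype Λ)
  have hliK : LinearIndependent K fun i => ((b i : Λ) : F) :=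
    (LinearIndependent.iff_fractionRing A K).mp hliA
  have hcard : Fintype.card ι ≤ finrank K V := by
    have hliV : LinearIndependent K fun i => (⟨((b i : Λ) : F), hbV i⟩ : V) := by
      apply LinearIndependent.of_comp V.subtype
      exact hliK
    exact hliV.fintype_card_le_finrank
  -- the reductions of the basis span `redLat V`
  set rb : ι → κ := fun i => R.res ⟨((b i : Λ) : F), hbO i⟩ with hrb
  have hspan : R.redLat V ≤ Submodule.span k (Set.range rb) := by
    rintro _ ⟨x, hx, hxV, rfl⟩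
    have hxΛ : x ∈ Λ := ⟨hxV, hx⟩
    have hrepr := b.sum_repr ⟨x, hxΛ⟩
    have hrepr' : x = ∑ i, (b.repr ⟨x, hxΛ⟩ i) • ((b i : Λ) : F) := by
      have := congrArg (Subtype.val) hrepr
      simp only at this
      refine this.symm.trans ?_
      rw [Submodule.coe_sum]
      rfl
    have hmem : ∀ i, (b.repr ⟨x, hxΛ⟩ i) • ((b i : Λ) : F) ∈ O :=
      fun i => R.smul_mem_O _ (hbO i)
    have hs : ∑ i, (b.repr ⟨x, hxΛ⟩ i) • ((b i : Λ) : F) ∈ O := hrepr' ▸ hx
    have e1 : R.res ⟨x, hx⟩ = R.res ⟨∑ i, (b.repr ⟨x, hxΛ⟩ i) • ((b i : Λ) : F), hs⟩ := by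
      congr 1; exact Subtype.ext hrepr'
    rw [e1, R.res_sum _ _ hmem hs]
    refine Submodule.sum_mem _ fun i _ => ?_
    rw [R.res_smul _ (hbO i)]
    exact Submodule.smul_mem _ _ (Submodule.subset_span ⟨i, rfl⟩)
  have hfin : FiniteDimensional k (Submodule.span k (Set.range rb)) :=
    FiniteDimensional.span_of_finite k (Set.finite_range _)
  have hfin' : FiniteDimensional k (R.redLat V) := Submodule.finiteDimensional_of_le hspan
  refine ⟨hfin', le_antisymm ?_ ?_⟩
  · calc finrank k (R.redLat V) ≤ finrank k (Submodule.span k (Set.range rb)) :=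
          Submodule.finrank_mono hspan
      _ ≤ Fintype.card ι := finrank_range_le_card _
      _ ≤ finrank K V := hcard
  · exact R.finrank_le_of_fg V (R.lat V) (fun f => Iff.rfl) hfg (R.redLat V)
      (fun x hx => ⟨x, hx.2, hx.1, rfl⟩)

end Fermat.Agent.S27x.Spec.Deuring
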