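import Fermat.Agent.S27x.Spec.Deuring.Lattice
import Fermat.Agent.S27x.Spec.Deuring.FundIneq
import Fermat.Agent.S27x.Spec.Deuring.CurveFacts

/-!
# P-S27 / G4, Deuring reduction of divisors (C): reduction of large effective divisors

`R : RedSetup A O k κ` satisfying `Hyp R` (surjective residue map, cartesian lattices, the genus
does not drop, both sides function fields over algebraically closed fields of characteristic `0`).

For an effective divisor `D` of `F / K` of degree `≥ thr = 2 g_κ + g + 1` the reduction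
`R.redLat (L(D))` of the lattice `L(D) ∩ O` is again a Riemann-Roch space `L(D̄)` for a unique
effective divisor `D̄ = redDiv H D` of `κ / k`, of the same degree (`redDiv_spec`); moreover
`g_κ = g` (`genus_eq`).  `D ↦ D̄` is additive (`redDiv_add`) and monotone (`redDiv_mono`).
-/

set_option autoImplicit false
set_option linter.unusedSectionVars false
set_option linter.style.haveILetI false

noncomputable section

namespace Fermat.Agent.S27x.Spec.Deuring

open AlgebraicCurve IntermediateField Module Fermat.Agent.Gateway.C0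
  Fermat.Agent.Lib.RiemannRoch

/-! ### A generic element of a finite-dimensional space of functions -/

section Generic

variable {K F : Type*} [Field K] [Field F] [Algebra K F]

theorem ord_eq_of_mem_of_notMem {E : Divisor K F} {f : F} {v : Place K F} (hf0 : f ≠ 0)
    (h1 : f ∈ riemannRochSpace E) (h2 : f ∉ riemannRochSpace (E - Finsupp.single v 1)) :
    v.ord f = -E v := by
  have hge := (mem_rrs_of_ne_zero hf0).mp h1 v
  rw [mem_rrs_of_ne_zero hf0, not_forall] at h2
  obtain ⟨w, hw⟩ := h2
  have hwv : w = v := by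
    by_contra hne
    apply hw
    rw [Finsupp.sub_apply, Finsupp.single_eq_of_ne hne, sub_zero]
    exact (mem_rrs_of_ne_zero hf0).mp h1 w
  subst hwv
  rw [Finsupp.sub_apply, Finsupp.single_eq_same] at hw
  omega

variable [IsAlgClosed K] [CharZero K] {x : F} (hx : Transcendental K x)
  [FiniteDimensional K⟮x⟯ F]
include hx

/-- A finite-dimensional space `W ∋ 1` of functions lies in `L(E)` where `E ≥ 0` is the exact pole
divisor of a single (generic) element of `W`. -/
theorem exists_generic (W : Submodule K F) [FiniteDimensional K W] (h1 : (1 : F) ∈ W) :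
    ∃ E : Divisor K F, 0 ≤ E ∧ W ≤ riemannRochSpace E ∧
      ∃ f ∈ W, f ≠ 0 ∧ ∀ v : Place K F, E v = max 0 (-(v.ord f)) := by
  classical
  -- a divisor of minimal degree with `W ≤ L(E)`
  have hbdd : ∃ b : ℤ, ∀ z : ℤ, (∃ E : Divisor K F, 0 ≤ E ∧ W ≤ riemannRochSpace E ∧
      Divisor.degree E = z) → b ≤ z := by
    refine ⟨0, ?_⟩
    rintro z ⟨E, hE0, -, rfl⟩
    exact degree_nonneg hE0
  have hinh : ∃ z : ℤ, ∃ E : Divisor K F, 0 ≤ E ∧ W ≤ riemannRochSpace E ∧
      Divisor.degree E = z := by
    obtain ⟨E, hE0, hWE⟩ := exists_rrs_ge hx W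
    exact ⟨_, E, hE0, hWE, rfl⟩
  obtain ⟨n, ⟨E, hE0, hWE, hEn⟩, hmin⟩ := Int.exists_least_of_bdd hbdd hinh
  refine ⟨E, hE0, hWE, ?_⟩
  have hpos : ∀ v ∈ E.support, 0 < E v := fun v hv =>
    lt_of_le_of_ne (hE0 v) (Ne.symm (Finsupp.mem_support_iff.mp hv))
  -- the proper subspaces to avoid
  have hproper : ∀ v : E.support,
      (riemannRochSpace (E - Finsupp.single (v : Place K F) 1)).comap W.subtype ≠ ⊤ := by
    intro v htop
    have hle : W ≤ riemannRochSpace (E - Finsupp.single (v : Place K F) 1) := by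
      intro f hf
      have : (⟨f, hf⟩ : W) ∈ (riemannRochSpace
          (E - Finsupp.single (v : Place K F) 1)).comap W.subtype := by
        rw [htop]; exact Submodule.mem_top
      exact this
    have hE'0 : 0 ≤ E - Finsupp.single (v : Place K F) 1 := by
      intro w
      rw [Finsupp.sub_apply]
      by_cases hw : w = v
      · subst hw
        have := hpos _ v.2
        simp only [Finsupp.single_eq_same, Finsupp.coe_zero, Pi.zero_apply]
        omega
      · rw [Finsupp.single_eq_of_ne hw, sub_zero]
        exact hE0 w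
    have := hmin _ ⟨_, hE'0, hle, rfl⟩
    rw [map_sub, degree_single_one hx, hEn] at this
    omega
  by_cases hsupp : E.support.Nonempty
  · obtain ⟨f, hf⟩ := Submodule.exists_forall_notMem_of_forall_ne_top _ hproper
    obtain ⟨v₀, hv₀⟩ := hsupp
    have hf0 : (f : F) ≠ 0 := by
      intro h0
      apply hf ⟨v₀, hv₀⟩
      have : f = 0 := Subtype.ext h0
      rw [this]
      exact Submodule.zero_mem _
    refine ⟨f, f.2, hf0, fun v => ?_⟩
    have hfE := hWE f.2
    by_cases hv : v ∈ E.support
    · have hnot : (f : F) ∉ riemannRochSpace (E - Finsupp.single v 1) := fun h => hf ⟨v, hv⟩ h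
      have := ord_eq_of_mem_of_notMem hf0 hfE hnot
      have := hpos v hv
      omega
    · have hv0 : E v = 0 := Finsupp.notMem_support_iff.mp hv
      have := (mem_rrs_of_ne_zero hf0).mp hfE v
      omega
  · have hE : E = 0 := by
      rw [Finset.not_nonempty_iff_eq_empty, Finsupp.support_eq_empty] at hsupp
      exact hsupp
    exact ⟨1, h1, one_ne_zero, fun v => by simp [hE]⟩

end Generic

variable {K : Type*} [Field K] {A : ValuationSubring K} {F : Type*} [Field F] [Algebra K F]
  {O : ValuationSubring F} {k κ : Type*} [Field k] [Field κ] [Algebra k κ]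

/-- Standing hypotheses of the reduction of divisors ("good reduction" in valuation-theoretic
form): surjective residue map, cartesian lattices, the genus does not drop; both sides are
function fields of one variable. -/
structure Hyp (R : RedSetup A O k κ) : Prop where
  res_surj : Function.Surjective R.res
  cart : ∀ V : Submodule K F, FiniteDimensional K V → (R.lat V).FG
  genus_le : genusFF K F ≤ genusFF k κ
  ff : ∃ x : F, Transcendental K x ∧ FiniteDimensional K⟮x⟯ F
  ffb : ∃ xb : κ, Transcendental k xb ∧ FiniteDimensional k⟮xb⟯ κ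

variable (K F k κ) in
/-- the degree threshold for the direct reduction of effective divisors -/
def thr : ℤ := 2 * (genusFF k κ : ℤ) + genusFF K F + 1

variable [IsAlgClosed K] [CharZero K] [IsAlgClosed k] [CharZero k]
  {R : RedSetup A O k κ} (H : Hyp R)
include H

theorem finrank_redLat_rrs (D : Divisor K F) :
    FiniteDimensional k (R.redLat (riemannRochSpace D)) ∧
      finrank k (R.redLat (riemannRochSpace D)) = finrank K (riemannRochSpace D) := by
  obtain ⟨x, hx, hfin⟩ := H.ff
  haveI := hfin
  haveI := finite_rrs hx D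
  exact finrank_redLat R _ (H.cart _ inferInstance)

/-- **Reduction of a large effective divisor.** -/
theorem exists_redDiv (D : Divisor K F) (hD : 0 ≤ D) (hdeg : thr K F k κ ≤ Divisor.degree D) :
    ∃ E : Divisor k κ, 0 ≤ E ∧ Divisor.degree E = Divisor.degree D ∧
      R.redLat (riemannRochSpace D) = riemannRochSpace E ∧ genusFF k κ = genusFF K F := by
  obtain ⟨x, hx, hfin⟩ := H.ff
  haveI := hfin
  obtain ⟨xb, hxb, hfinb⟩ := H.ffb
  haveI := hfinb
  unfold thr at hdeg
  have hg := H.genus_le
  have hgZ : (genusFF K F : ℤ) ≤ genusFF k κ := by exact_mod_cast hg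
  set N := Divisor.degree D with hN
  set W := R.redLat (riemannRochSpace D) with hW
  obtain ⟨hWfin, hWdim⟩ := finrank_redLat_rrs H D
  haveI := hWfin
  have hWdimZ : (finrank k W : ℤ) = N + 1 - genusFF K F := by
    rw [hWdim]
    exact finrank_rrs_of_degree_gt hx (by omega)
  have h1W : (1 : κ) ∈ W := one_mem_redLat R (one_mem_rrs hD)
  obtain ⟨E, hE0, hWE, f, hfW, hf0, hEf⟩ := exists_generic hxb W h1W
  -- `deg E ≤ N` by the fundamental inequality
  have hdegE : Divisor.degree E ≤ N := by
    by_cases hfc : f ∈ Set.range (algebraMap k κ)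
    · obtain ⟨c, rfl⟩ := hfc
      have hE : E = 0 := by
        ext v
        rw [hEf v, Fermat.Agent.S24.PDiv.ord_algebraMap]
        simp
      rw [hE, map_zero]
      have := degree_nonneg hD
      omega
    · obtain ⟨y, hyO, hyD, hyf⟩ := hfW
      obtain ⟨hft, hffin, B, hB, hBdeg⟩ := exists_poleDivisor hxb hfc
      have hBE : B = E := by
        ext v
        rw [hB v, hEf v]
      have hfb : Transcendental k (R.res ⟨y, hyO⟩) := by rw [hyf]; exact hft
      have hyt : Transcendental K y := transcendental_of_res R (f := ⟨y, hyO⟩) hfb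
      haveI : FiniteDimensional K⟮y⟯ F :=
        Fermat.Agent.S24.PDiv.finiteDimensional_adjoin_simple_of_transcendental hx hyt
      obtain ⟨-, hle⟩ := finite_and_finrank_le R H.res_surj (f := ⟨y, hyO⟩) hfb
      obtain ⟨By, hBy, hBydeg⟩ := exists_poleDivisor_cz hyt
      have hy0 : y ≠ 0 := by
        rintro rfl
        exact hyt isAlgebraic_zero
      have hByD : By ≤ D := by
        intro v
        rw [hBy v]
        have h1 := (mem_rrs_of_ne_zero hy0).mp hyD v
        have h2 := hD v
        simp only [Finsupp.coe_zero, Pi.zero_apply] at h2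
        exact max_le h2 (by omega)
      have h3 := degree_mono hByD
      rw [← hBE, hBdeg]
      have h4 : (finrank k⟮f⟯ κ : ℤ) ≤ finrank K⟮y⟯ F := by
        have : finrank k⟮R.res ⟨y, hyO⟩⟯ κ ≤ finrank K⟮y⟯ F := hle
        rw [hyf] at this
        exact_mod_cast this
      rw [hBydeg] at h3
      omega
  -- Riemann-Roch on `κ`
  haveI := finite_rrs hxb E
  have hle1 : (finrank k W : ℤ) ≤ finrank k (riemannRochSpace E) := by
    exact_mod_cast Submodule.finrank_mono hWE
  have hle2 := finrank_rrs_le hxb E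
  have hbig : 2 * (genusFF k κ : ℤ) - 1 < Divisor.degree E := by
    by_contra hsmall
    rw [not_lt] at hsmall
    rw [max_eq_right hsmall] at hle2
    omega
  have hEdim := finrank_rrs_of_degree_gt hxb (D := E) (by omega)
  have hgeq : (genusFF k κ : ℤ) = genusFF K F := by omega
  have hdegeq : Divisor.degree E = N := by omega
  refine ⟨E, hE0, hdegeq, ?_, by exact_mod_cast hgeq⟩
  refine Submodule.eq_of_le_of_finrank_eq hWE ?_
  have : (finrank k W : ℤ) = finrank k (riemannRochSpace E) := by
    rw [hEdim, hWdimZ, hdegeq, hgeq]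
  exact_mod_cast this

/-- **The genus is preserved.** -/
theorem genus_eq : genusFF k κ = genusFF K F := by
  obtain ⟨x, hx, hfin⟩ := H.ff
  haveI := hfin
  obtain ⟨v⟩ := nonempty_place_cz hx
  set n : ℤ := ((thr K F k κ).toNat : ℤ) with hn
  have hn0 : 0 ≤ n := by rw [hn]; exact Int.natCast_nonneg _
  have hD : (0 : Divisor K F) ≤ Finsupp.single v n := Finsupp.single_nonneg.mpr hn0
  have hdeg : thr K F k κ ≤ Divisor.degree (Finsupp.single v n) := by
    rw [Divisor.degree_single, deg_one hx v, hn]
    simp only [Nat.cast_one, mul_one]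
    exact Int.self_le_toNat _
  obtain ⟨E, -, -, -, h⟩ := exists_redDiv H _ hD hdeg
  exact h

open Classical in
/-- the reduction `D̄` of a large effective divisor `D` (`0` otherwise) -/
def redDiv (D : Divisor K F) : Divisor k κ :=
  if h : 0 ≤ D ∧ thr K F k κ ≤ Divisor.degree D then (exists_redDiv H D h.1 h.2).choose else 0

theorem redDiv_spec {D : Divisor K F} (hD : 0 ≤ D) (hdeg : thr K F k κ ≤ Divisor.degree D) :
    0 ≤ redDiv H D ∧ Divisor.degree (redDiv H D) = Divisor.degree D ∧
      R.redLat (riemannRochSpace D) = riemannRochSpace (redDiv H D) := by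
  have h : 0 ≤ D ∧ thr K F k κ ≤ Divisor.degree D := ⟨hD, hdeg⟩
  have hs := (exists_redDiv H D h.1 h.2).choose_spec
  unfold redDiv
  rw [dif_pos h]
  exact ⟨hs.1, hs.2.1, hs.2.2.1⟩

theorem two_genus_le_thr : 2 * (genusFF k κ : ℤ) ≤ thr K F k κ := by
  unfold thr
  have : (0 : ℤ) ≤ genusFF K F := Int.natCast_nonneg _
  omega

/-- `D ↦ D̄` is monotone. -/
theorem redDiv_mono {D D' : Divisor K F} (hD : 0 ≤ D) (hdeg : thr K F k κ ≤ Divisor.degree D)
    (hle : D ≤ D') : redDiv H D ≤ redDiv H D' := by
  obtain ⟨xb, hxb, hfinb⟩ := H.ffb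
  haveI := hfinb
  have hD' : 0 ≤ D' := hD.trans hle
  have hdeg' : thr K F k κ ≤ Divisor.degree D' := hdeg.trans (degree_mono hle)
  obtain ⟨-, h2, h3⟩ := redDiv_spec H hD hdeg
  obtain ⟨-, -, h3'⟩ := redDiv_spec H hD' hdeg'
  apply le_of_rrs_le hxb
  · rw [h2]; exact (two_genus_le_thr H).trans hdeg
  · rw [← h3, ← h3']
    exact redLat_mono R (rrs_mono hle)

/-- `D ↦ D̄` is additive. -/
theorem redDiv_add {D D' : Divisor K F} (hD : 0 ≤ D) (hdeg : thr K F k κ ≤ Divisor.degree D)
    (hD' : 0 ≤ D') (hdeg' : thr K F k κ ≤ Divisor.degree D') :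
    redDiv H (D + D') = redDiv H D + redDiv H D' := by
  obtain ⟨xb, hxb, hfinb⟩ := H.ffb
  haveI := hfinb
  have hthr0 : 0 ≤ thr K F k κ := by
    unfold thr
    have h1 : (0 : ℤ) ≤ genusFF K F := Int.natCast_nonneg _
    have h2 : (0 : ℤ) ≤ genusFF k κ := Int.natCast_nonneg _
    omega
  have hDD' : 0 ≤ D + D' := add_nonneg hD hD'
  have hdegDD' : thr K F k κ ≤ Divisor.degree (D + D') := by
    rw [map_add]; omega
  obtain ⟨-, h2, h3⟩ := redDiv_spec H hD hdeg
  obtain ⟨-, h2', h3'⟩ := redDiv_spec H hD' hdeg'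
  obtain ⟨-, h2'', h3''⟩ := redDiv_spec H hDD' hdegDD'
  symm
  apply eq_of_le_of_degree_le hxb
  · intro v
    obtain ⟨f, hf, hf0, hford⟩ := exists_mem_rrs_ord_eq hxb (D := redDiv H D)
      (by rw [h2]; exact (two_genus_le_thr H).trans hdeg) v
    obtain ⟨f', hf', hf0', hford'⟩ := exists_mem_rrs_ord_eq hxb (D := redDiv H D')
      (by rw [h2']; exact (two_genus_le_thr H).trans hdeg') v
    rw [← h3] at hf
    rw [← h3'] at hf'
    have hmul : f * f' ∈ R.redLat (riemannRochSpace (D + D')) :=
      mul_mem_redLat R (fun a ha b hb => mul_mem_rrs' ha hb) hf hf'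
    rw [h3''] at hmul
    have := (mem_rrs_of_ne_zero (mul_ne_zero hf0 hf0')).mp hmul v
    rw [v.ord_mul hf0 hf0'] at this
    rw [Finsupp.add_apply]
    omega
  · rw [h2'', map_add, map_add, h2, h2']

end Fermat.Agent.S27x.Spec.Deuring
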