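import Fermat.Agent.S27x.Spec.Deuring.Reduce

/-!
# P-S27 / G4, Deuring reduction of divisors (D): the specialisation homomorphism

`R : RedSetup A O k κ` with `H : Hyp R`.

* `sp H : Place K F → Place k κ`, `spDiv H : Divisor K F →+ Divisor k κ` (`= mapDomain (sp H)`),
  degree preserving (`degree_spDiv`), effective to effective (`spDiv_nonneg`), surjective on places
  (`sp_surjective`);
* `spDiv_principal`: `sp (div f) = div (res f)` for `f` of `O`-valuation one;
* `redLat_rrs_le`: the lattice `L(D) ∩ O` reduces into `L(sp D)`, with equality for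
  `deg D > 2g - 2` (`redLat_rrs_eq`).
-/

set_option autoImplicit false
set_option linter.unusedSectionVars false
set_option linter.style.haveILetI false

noncomputable section

namespace Fermat.Agent.S27x.Spec.Deuring

open AlgebraicCurve IntermediateField Module Fermat.Agent.Gateway.C0
  Fermat.Agent.Lib.RiemannRoch

variable {K : Type*} [Field K] {A : ValuationSubring K} {F : Type*} [Field F] [Algebra K F]
  {O : ValuationSubring F} {k κ : Type*} [Field k] [Field κ] [Algebra k κ]
  [IsAlgClosed K] [CharZero K] [IsAlgClosed k] [CharZero k]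
  {R : RedSetup A O k κ} (H : Hyp R)
include H

theorem nonempty_place : Nonempty (Place K F) := by
  obtain ⟨x, hx, hfin⟩ := H.ff
  haveI := hfin
  exact nonempty_place_cz hx

/-- an auxiliary base place -/
def basePlace : Place K F := Classical.choice (nonempty_place H)

/-- an auxiliary large effective base divisor -/
def baseDiv : Divisor K F := Finsupp.single (basePlace H) (((thr K F k κ).toNat : ℕ) : ℤ)

theorem baseDiv_nonneg : 0 ≤ baseDiv H :=
  Finsupp.single_nonneg.mpr (Int.natCast_nonneg _)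

theorem thr_le_degree_baseDiv : thr K F k κ ≤ Divisor.degree (baseDiv H) := by
  obtain ⟨x, hx, hfin⟩ := H.ff
  haveI := hfin
  unfold baseDiv
  rw [Divisor.degree_single, deg_one hx]
  simp only [Nat.cast_one, mul_one]
  exact Int.self_le_toNat _

theorem base_add_nonneg {D : Divisor K F} (hD : 0 ≤ D) : 0 ≤ baseDiv H + D :=
  add_nonneg (baseDiv_nonneg H) hD

theorem thr_le_degree_base_add {D : Divisor K F} (hD : 0 ≤ D) :
    thr K F k κ ≤ Divisor.degree (baseDiv H + D) := by
  rw [map_add]
  have := thr_le_degree_baseDiv H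
  have := degree_nonneg hD
  omega

theorem exists_sp (P : Place K F) : ∃ w : Place k κ,
    redDiv H (baseDiv H + Finsupp.single P 1) = redDiv H (baseDiv H) + Finsupp.single w 1 := by
  obtain ⟨x, hx, hfin⟩ := H.ff
  haveI := hfin
  obtain ⟨xb, hxb, hfinb⟩ := H.ffb
  haveI := hfinb
  have hP : (0 : Divisor K F) ≤ Finsupp.single P 1 := Finsupp.single_nonneg.mpr zero_le_one
  have hle : baseDiv H ≤ baseDiv H + Finsupp.single P 1 := le_add_of_nonneg_right hP
  have hmono := redDiv_mono H (baseDiv_nonneg H) (thr_le_degree_baseDiv H) hle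
  obtain ⟨-, h2, -⟩ := redDiv_spec H (baseDiv_nonneg H) (thr_le_degree_baseDiv H)
  obtain ⟨-, h2', -⟩ := redDiv_spec H (base_add_nonneg H hP) (thr_le_degree_base_add H hP)
  have hdeg : Divisor.degree (redDiv H (baseDiv H + Finsupp.single P 1) - redDiv H (baseDiv H))
      = 1 := by
    rw [map_sub, h2, h2', map_add, degree_single_one hx]
    ring
  obtain ⟨w, hw⟩ := exists_single_of_degree_eq_one hxb (sub_nonneg.mpr hmono) hdeg
  exact ⟨w, by rw [← hw]; abel⟩

/-- **Specialisation of places.** -/
def sp (P : Place K F) : Place k κ := (exists_sp H P).choose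

theorem sp_spec (P : Place K F) :
    redDiv H (baseDiv H + Finsupp.single P 1)
      = redDiv H (baseDiv H) + Finsupp.single (sp H P) 1 :=
  (exists_sp H P).choose_spec

/-- **Specialisation of divisors.** -/
def spDiv : Divisor K F →+ Divisor k κ := Finsupp.mapDomain.addMonoidHom (sp H)

theorem spDiv_apply (D : Divisor K F) : spDiv H D = Finsupp.mapDomain (sp H) D := rfl

@[simp] theorem spDiv_single (P : Place K F) (n : ℤ) :
    spDiv H (Finsupp.single P n) = Finsupp.single (sp H P) n := by
  rw [spDiv_apply, Finsupp.mapDomain_single]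

theorem degree_spDiv (D : Divisor K F) : Divisor.degree (spDiv H D) = Divisor.degree D := by
  obtain ⟨x, hx, hfin⟩ := H.ff
  haveI := hfin
  obtain ⟨xb, hxb, hfinb⟩ := H.ffb
  haveI := hfinb
  rw [degree_eq_sum' hx, degree_eq_sum' hxb, spDiv_apply]
  exact Finsupp.sum_mapDomain_index (fun _ => rfl) (fun _ _ _ => rfl)

theorem spDiv_nonneg {D : Divisor K F} (hD : 0 ≤ D) : 0 ≤ spDiv H D := by
  rw [spDiv_apply, Finsupp.mapDomain]
  exact Finset.sum_nonneg fun v _ => Finsupp.single_nonneg.mpr (hD v)

theorem spDiv_mono {D D' : Divisor K F} (h : D ≤ D') : spDiv H D ≤ spDiv H D' := by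
  have := spDiv_nonneg H (sub_nonneg.mpr h)
  rw [map_sub] at this
  exact sub_nonneg.mp this

/-- the key comparison: `redDiv (E₀ + D) = redDiv E₀ + sp D` for effective `D` -/
theorem redDiv_base_add_aux (n : ℕ) : ∀ D : Divisor K F, 0 ≤ D → Divisor.degree D = n →
    redDiv H (baseDiv H + D) = redDiv H (baseDiv H) + spDiv H D := by
  obtain ⟨x, hx, hfin⟩ := H.ff
  haveI := hfin
  induction n with
  | zero =>
    intro D hD hdeg
    have : D = 0 := eq_zero_of_nonneg_of_degree_le hx hD (by rw [hdeg]; simp)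
    rw [this, add_zero, map_zero, add_zero]
  | succ n ih =>
    intro D hD hdeg
    have hne : D ≠ 0 := by
      rintro rfl
      rw [map_zero] at hdeg
      have : (0 : ℤ) < ((n + 1 : ℕ) : ℤ) := by positivity
      omega
    obtain ⟨v, hv⟩ : ∃ v, D v ≠ 0 := by
      by_contra hall
      rw [not_exists] at hall
      apply hne
      ext v
      simpa using hall v
    have hpos : 0 < D v := lt_of_le_of_ne (hD v) (Ne.symm hv)
    set D' : Divisor K F := D - Finsupp.single v 1 with hD'def
    have hD' : 0 ≤ D' := by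
      intro w
      rw [hD'def, Finsupp.sub_apply]
      by_cases hw : w = v
      · subst hw
        simp only [Finsupp.single_eq_same, Finsupp.coe_zero, Pi.zero_apply]
        omega
      · rw [Finsupp.single_eq_of_ne hw, sub_zero]
        exact hD w
    have hdeg' : Divisor.degree D' = n := by
      rw [hD'def, map_sub, degree_single_one hx, hdeg]
      push_cast
      ring
    have hDeq : D = D' + Finsupp.single v 1 := by rw [hD'def]; abel
    have hv1 : (0 : Divisor K F) ≤ Finsupp.single v 1 := Finsupp.single_nonneg.mpr zero_le_one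
    have hih := ih D' hD' hdeg'
    have hadd1 := redDiv_add H (base_add_nonneg H hD') (thr_le_degree_base_add H hD')
      (base_add_nonneg H hv1) (thr_le_degree_base_add H hv1)
    have hadd2 := redDiv_add H (base_add_nonneg H hD) (thr_le_degree_base_add H hD)
      (baseDiv_nonneg H) (thr_le_degree_baseDiv H)
    have hsame : baseDiv H + D' + (baseDiv H + Finsupp.single v 1)
        = baseDiv H + D + baseDiv H := by
      rw [hDeq]; abel
    rw [hsame, hadd2, hih, sp_spec H v] at hadd1
    have h4 : spDiv H D = spDiv H D' + Finsupp.single (sp H v) 1 := by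
      rw [hDeq, map_add, spDiv_single]
    rw [h4]
    have h5 : redDiv H (baseDiv H + D) + redDiv H (baseDiv H)
        = (redDiv H (baseDiv H) + (spDiv H D' + Finsupp.single (sp H v) 1))
          + redDiv H (baseDiv H) := by
      rw [hadd1]; abel
    exact add_right_cancel h5

theorem redDiv_base_add {D : Divisor K F} (hD : 0 ≤ D) :
    redDiv H (baseDiv H + D) = redDiv H (baseDiv H) + spDiv H D := by
  have h0 := degree_nonneg hD
  exact redDiv_base_add_aux H (Divisor.degree D).toNat D hD (Int.toNat_of_nonneg h0).symm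

/-- on large effective divisors, `redDiv` is `spDiv` -/
theorem redDiv_eq_spDiv {D : Divisor K F} (hD : 0 ≤ D)
    (hdeg : thr K F k κ ≤ Divisor.degree D) : redDiv H D = spDiv H D := by
  have h1 := redDiv_add H (baseDiv_nonneg H) (thr_le_degree_baseDiv H) hD hdeg
  rw [redDiv_base_add H hD] at h1
  exact (add_left_cancel h1).symm

/-- the reduction of `L(E₀ + D) ∩ O` is `L(Ē₀ + sp D)` -/
theorem redLat_rrs_base_add {D : Divisor K F} (hD : 0 ≤ D) :
    R.redLat (riemannRochSpace (baseDiv H + D))
      = riemannRochSpace (redDiv H (baseDiv H) + spDiv H D) := by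
  rw [← redDiv_base_add H hD]
  exact (redDiv_spec H (base_add_nonneg H hD) (thr_le_degree_base_add H hD)).2.2

theorem two_genus_le_degree_base_add {D : Divisor K F} (hD : 0 ≤ D) :
    2 * (genusFF k κ : ℤ) ≤ Divisor.degree (redDiv H (baseDiv H) + spDiv H D) := by
  rw [← redDiv_base_add H hD,
    (redDiv_spec H (base_add_nonneg H hD) (thr_le_degree_base_add H hD)).2.1]
  exact (two_genus_le_thr H).trans (thr_le_degree_base_add H hD)

/-- **`sp (div f) = div (res f)`** for `f` of `O`-valuation one. -/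
theorem spDiv_principal {f : F} (hf : O.valuation f = 1) {D : Divisor K F}
    (hD : ∀ v : Place K F, D v = v.ord f) (w : Place k κ) :
    spDiv H D w = w.ord (R.res ⟨f, (O.valuation_le_one_iff f).mp hf.le⟩) := by
  obtain ⟨xb, hxb, hfinb⟩ := H.ffb
  haveI := hfinb
  have hf0 : f ≠ 0 := by
    rintro rfl
    rw [map_zero] at hf
    exact zero_ne_one hf
  have hfO : f ∈ O := (O.valuation_le_one_iff f).mp hf.le
  have hfi : O.valuation f⁻¹ = 1 := by rw [map_inv₀, hf, inv_one]
  have hfiO : f⁻¹ ∈ O := (O.valuation_le_one_iff _).mp hfi.le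
  set fb := R.res ⟨f, hfO⟩ with hfb
  set fbi := R.res ⟨f⁻¹, hfiO⟩ with hfbi
  have hprod : fb * fbi = 1 := by
    rw [hfb, hfbi, ← map_mul]
    have : (⟨f, hfO⟩ : O) * ⟨f⁻¹, hfiO⟩ = 1 := Subtype.ext (mul_inv_cancel₀ hf0)
    rw [this, map_one]
  have hfb0 : fb ≠ 0 := left_ne_zero_of_mul_eq_one hprod
  have hfbi0 : fbi ≠ 0 := right_ne_zero_of_mul_eq_one hprod
  -- zero and pole divisors
  set Z : Divisor K F := D ⊔ 0 with hZ
  set P : Divisor K F := (-D) ⊔ 0 with hP
  have hZ0 : 0 ≤ Z := le_sup_right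
  have hP0 : 0 ≤ P := le_sup_right
  have hZP : ∀ v, D v = Z v - P v := by
    intro v
    rw [hZ, hP, Finsupp.sup_apply, Finsupp.sup_apply, Finsupp.neg_apply]
    simp only [Finsupp.coe_zero, Pi.zero_apply]
    rcases le_total (D v) 0 with h | h
    · rw [max_eq_right h, max_eq_left (by omega)]; ring
    · rw [max_eq_left h, max_eq_right (by omega)]; ring
  have hDeq : D = Z - P := by
    ext v
    rw [Finsupp.sub_apply]
    exact hZP v
  -- multiplication by `f` and `f⁻¹`
  have hmul1 : ∀ g ∈ riemannRochSpace (baseDiv H + Z), f * g ∈ riemannRochSpace (baseDiv H + P) := by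
    intro g hg
    by_cases hg0 : g = 0
    · rw [hg0, mul_zero]; exact Submodule.zero_mem _
    rw [mem_rrs_of_ne_zero (mul_ne_zero hf0 hg0)]
    intro v
    have h1 := (mem_rrs_of_ne_zero hg0).mp hg v
    rw [v.ord_mul hf0 hg0, ← hD v, hZP v]
    rw [Finsupp.add_apply] at h1 ⊢
    omega
  have hmul2 : ∀ g ∈ riemannRochSpace (baseDiv H + P),
      f⁻¹ * g ∈ riemannRochSpace (baseDiv H + Z) := by
    intro g hg
    by_cases hg0 : g = 0
    · rw [hg0, mul_zero]; exact Submodule.zero_mem _
    rw [mem_rrs_of_ne_zero (mul_ne_zero (inv_ne_zero hf0) hg0)]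
    intro v
    have h1 := (mem_rrs_of_ne_zero hg0).mp hg v
    rw [v.ord_mul (inv_ne_zero hf0) hg0, v.ord_inv, ← hD v, hZP v]
    rw [Finsupp.add_apply] at h1 ⊢
    omega
  have hordinv : w.ord fbi = -w.ord fb := by
    have := w.ord_mul hfb0 hfbi0
    rw [hprod, Place.ord_one] at this
    omega
  -- lower bound
  obtain ⟨h, hh, hh0, hhord⟩ := exists_mem_rrs_ord_eq hxb
    (two_genus_le_degree_base_add H hZ0) w
  rw [← redLat_rrs_base_add H hZ0] at hh
  have h1 := mem_redLat_of_mul_unit R hfO hmul1 hh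
  rw [redLat_rrs_base_add H hP0] at h1
  have h1' := (mem_rrs_of_ne_zero (mul_ne_zero hfb0 hh0)).mp h1 w
  rw [w.ord_mul hfb0 hh0, hhord] at h1'
  -- upper bound
  obtain ⟨h', hh', hh0', hhord'⟩ := exists_mem_rrs_ord_eq hxb
    (two_genus_le_degree_base_add H hP0) w
  rw [← redLat_rrs_base_add H hP0] at hh'
  have h2 := mem_redLat_of_mul_unit R hfiO hmul2 hh'
  rw [redLat_rrs_base_add H hZ0] at h2
  have h2' := (mem_rrs_of_ne_zero (mul_ne_zero hfbi0 hh0')).mp h2 w
  rw [w.ord_mul hfbi0 hh0', hhord', hordinv] at h2'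
  rw [hDeq, map_sub, Finsupp.sub_apply]
  rw [Finsupp.add_apply] at h1' h2'
  rw [Finsupp.add_apply] at h1' h2'
  omega

/-- **The lattice `L(D) ∩ O` reduces into `L(sp D)`.** -/
theorem redLat_rrs_le (D : Divisor K F) :
    R.redLat (riemannRochSpace D) ≤ riemannRochSpace (spDiv H D) := by
  obtain ⟨x, hx, hfin⟩ := H.ff
  haveI := hfin
  rintro _ ⟨y, hyO, hyD, rfl⟩
  by_cases hres : R.res ⟨y, hyO⟩ = 0
  · rw [hres]; exact Submodule.zero_mem _
  have hval : O.valuation y = 1 := (res_ne_zero_iff R hyO).mp hres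
  have hy0 : y ≠ 0 := by
    rintro rfl
    rw [map_zero] at hval
    exact zero_ne_one hval
  obtain ⟨Dy, hDy⟩ := exists_divisor hx y
  rw [mem_rrs_of_ne_zero hres]
  intro w
  have hnn : 0 ≤ Dy + D := by
    intro v
    have := (mem_rrs_of_ne_zero hy0).mp hyD v
    rw [Finsupp.add_apply, hDy v]
    simp only [Finsupp.coe_zero, Pi.zero_apply]
    omega
  have h1 := spDiv_nonneg H hnn w
  rw [map_add, Finsupp.add_apply, spDiv_principal H hval hDy w] at h1
  simp only [Finsupp.coe_zero, Pi.zero_apply] at h1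
  omega

/-- equality as soon as `deg D > 2g - 2`: every element of `L(sp D)` lifts to `L(D) ∩ O` -/
theorem redLat_rrs_eq {D : Divisor K F}
    (hD : 2 * (genusFF K F : ℤ) - 2 < Divisor.degree D) :
    R.redLat (riemannRochSpace D) = riemannRochSpace (spDiv H D) := by
  obtain ⟨x, hx, hfin⟩ := H.ff
  haveI := hfin
  obtain ⟨xb, hxb, hfinb⟩ := H.ffb
  haveI := hfinb
  obtain ⟨hfd, hdim⟩ := finrank_redLat_rrs H D
  haveI := hfd
  haveI := finite_rrs hxb (spDiv H D)
  refine Submodule.eq_of_le_of_finrank_eq (redLat_rrs_le H D) ?_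
  have hg := genus_eq H
  have h1 := finrank_rrs_of_degree_gt hx hD
  have h2 := finrank_rrs_of_degree_gt hxb (D := spDiv H D) (by rw [degree_spDiv, hg]; exact hD)
  rw [degree_spDiv, hg] at h2
  have : (finrank k (R.redLat (riemannRochSpace D)) : ℤ)
      = finrank k (riemannRochSpace (spDiv H D)) := by
    rw [hdim, h1, h2]
  exact_mod_cast this

/-- **Every place of `κ` is the specialisation of a place of `F`.** -/
theorem sp_surjective : Function.Surjective (sp H) := by
  obtain ⟨x, hx, hfin⟩ := H.ff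
  haveI := hfin
  obtain ⟨xb, hxb, hfinb⟩ := H.ffb
  haveI := hfinb
  intro w
  -- a function with a pole at `w`
  set E : Divisor k κ := Finsupp.single w ((2 * genusFF k κ + 1 : ℕ) : ℤ) with hE
  have hEdeg : 2 * (genusFF k κ : ℤ) ≤ Divisor.degree E := by
    rw [hE, Divisor.degree_single, deg_one hxb]
    push_cast
    omega
  obtain ⟨h, -, hh0, hhord⟩ := exists_mem_rrs_ord_eq hxb hEdeg w
  rw [hE, Finsupp.single_eq_same] at hhord
  obtain ⟨⟨y, hyO⟩, hy⟩ := H.res_surj h⁻¹
  have hres : R.res ⟨y, hyO⟩ ≠ 0 := by rw [hy]; exact inv_ne_zero hh0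
  have hval : O.valuation y = 1 := (res_ne_zero_iff R hyO).mp hres
  obtain ⟨Dy, hDy⟩ := exists_divisor hx y
  have h1 := spDiv_principal H hval hDy w
  have h2 : w.ord (R.res ⟨y, hyO⟩) = ((2 * genusFF k κ + 1 : ℕ) : ℤ) := by
    rw [hy, Place.ord_inv, hhord, neg_neg]
  by_contra hne
  have hnot : w ∉ Set.range (sp H) := hne
  rw [spDiv_apply, Finsupp.mapDomain_of_notMem_range _ _ hnot] at h1
  rw [h2] at h1
  have : (0 : ℤ) < ((2 * genusFF k κ + 1 : ℕ) : ℤ) := by positivity
  omega

end Fermat.Agent.S27x.Spec.Deuring
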